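import Fermat.Agent.S18.RED2069.P2Main

/-!
# S18 / RED, piece 2 (helper2069): the conjugate embeddings `σ_u : K(j, y) → K'((t))`

`F₁ = Frac K[X]`, `P₁ = P ∈ F₁[Z]` (irreducible), `A = F₁[Z]/(P₁)`;
`α : A ≅ K(j, y) ⊆ K((q))`, `β u : A → K'((t))`, `root ↦ Y_u`; `σ_u = β u ∘ α⁻¹`.
-/

set_option autoImplicit false
set_option linter.unusedSectionVars false

noncomputable section

namespace Fermat.Agent.S18.RED2069.P2

open ModularCurve Polynomial Fermat.Agent.S18.RED2069

variable (N : ℕ) [NeZero N] {K K' : Type} [Field K] [Field K'] [Algebra K K'] (D : FieldAN N K')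

/-- `Frac K[X]` -/
abbrev F1 (K : Type) [Field K] : Type := FractionRing K[X]

/-- `Frac K[X] → K((q))`, `X ↦ j` -/
def i1 (K : Type) [Field K] : F1 K →+* LaurentSeries K :=
  IsFractionRing.lift (g := evq K) (evq_injective K)

theorem i1_algebraMap (p : K[X]) : i1 K (algebraMap K[X] (F1 K) p) = evq K p :=
  IsFractionRing.lift_algebraMap _ p

theorem i1_comp : (i1 K).comp (algebraMap K[X] (F1 K)) = evq K :=
  RingHom.ext fun p => i1_algebraMap p

theorem toT_comp_evq_injective : Function.Injective ((toT N K K').comp (evq K)) :=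
  (toT_injective N K K').comp (evq_injective K)

/-- `Frac K[X] → K'((t))`, `X ↦ j(t^N)` -/
def i2 (K K' : Type) [Field K] [Field K'] [Algebra K K'] : F1 K →+* LaurentSeries K' :=
  IsFractionRing.lift (g := (toT N K K').comp (evq K)) (toT_comp_evq_injective N)

theorem i2_algebraMap (p : K[X]) :
    i2 N K K' (algebraMap K[X] (F1 K) p) = toT N K K' (evq K p) :=
  IsFractionRing.lift_algebraMap _ p

theorem i2_comp : (i2 N K K').comp (algebraMap K[X] (F1 K)) = (toT N K K').comp (evq K) :=
  RingHom.ext fun p => i2_algebraMap N p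

theorem i2_eq (r : F1 K) : i2 N K K' r = toT N K K' (i1 K r) := by
  have h : i2 N K K' = (toT N K K').comp (i1 K) := by
    apply IsLocalization.ringHom_ext (nonZeroDivisors K[X])
    ext p
    · simp only [RingHom.comp_apply]
      rw [i2_algebraMap, i1_algebraMap]
    · simp only [RingHom.comp_apply]
      rw [i2_algebraMap, i1_algebraMap]
  rw [h]
  rfl

include D in
/-- The characteristic polynomial of `y` is irreducible over `K[j]`. -/
theorem irreducible_of_charpoly {P : K[X][X]} (hPm : P.Monic)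
    (hPdeg : P.natDegree = Fintype.card D.ι) (hPy : P.eval₂ (evq K) (yK N K) = 0) :
    Irreducible P := by
  have hcard := card_pos D
  rw [hPm.irreducible_iff_natDegree']
  refine ⟨?_, ?_⟩
  · rintro rfl
    rw [natDegree_one] at hPdeg
    omega
  · intro f g hf hg hfg
    -- one of the factors kills `y`, hence has full degree
    have h0 : f.eval₂ (evq K) (yK N K) * g.eval₂ (evq K) (yK N K) = 0 := by
      rw [← eval₂_mul, hfg, hPy]
    have hdegsum : f.natDegree + g.natDegree = Fintype.card D.ι := by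
      rw [← hPdeg, ← hfg, hf.natDegree_mul hg]
    have key : ∀ h : K[X][X], h.Monic → h.eval₂ (evq K) (yK N K) = 0 →
        Fintype.card D.ι ≤ h.natDegree := by
      intro h hh hh0
      by_contra hlt
      have hdeg : h.degree < (Fintype.card D.ι : ℕ) := by
        rw [degree_eq_natDegree hh.ne_zero]
        exact_mod_cast not_le.mp hlt
      exact hh.ne_zero (indepK N D h hdeg hh0)
    intro hmem
    obtain ⟨hgpos, hglt⟩ := Finset.mem_Ioc.mp hmem
    rcases mul_eq_zero.mp h0 with h1 | h1
    · have := key f hf h1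
      omega
    · have := key g hg h1
      have h2 : g.natDegree ≤ P.natDegree / 2 := hglt
      rw [hPdeg] at h2
      omega

/-! ### The abstract field `A = F₁[Z]/(P₁)` and its two realisations -/

section Adjoin

variable {N} {P : K[X][X]}

/-- `P` over `Frac K[X]` -/
abbrev P1 (P : K[X][X]) : (F1 K)[X] := P.map (algebraMap K[X] (F1 K))

theorem eval₂_i1_map (G : K[X][X]) (x : LaurentSeries K) :
    (G.map (algebraMap K[X] (F1 K))).eval₂ (i1 K) x = G.eval₂ (evq K) x := by
  rw [eval₂_map, i1_comp]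

theorem eval₂_i2_map (G : K[X][X]) (x : LaurentSeries K') :
    (G.map (algebraMap K[X] (F1 K))).eval₂ (i2 N K K') x =
      (G.map ((toT N K K').comp (evq K))).eval x := by
  rw [eval₂_map, i2_comp, eval₂_eq_eval_map]

/-- `α : A → K((q))`, `root ↦ y` -/
def alpha (hPy : P.eval₂ (evq K) (yK N K) = 0) : AdjoinRoot (P1 P) →+* LaurentSeries K :=
  AdjoinRoot.lift (i1 K) (yK N K) (by rw [eval₂_i1_map]; exact hPy)

/-- `β u : A → K'((t))`, `root ↦ Y_u` -/
def beta (hP : P.map ((toT N K K').comp (evq K)) = chi D) (u : D.ι) :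
    AdjoinRoot (P1 P) →+* LaurentSeries K' :=
  AdjoinRoot.lift (i2 N K K') (Yf D u) (by rw [eval₂_i2_map, hP]; exact chi_eval D u)

theorem alpha_mk (hPy : P.eval₂ (evq K) (yK N K) = 0) (G : K[X][X]) :
    alpha hPy (AdjoinRoot.mk (P1 P) (G.map (algebraMap K[X] (F1 K)))) =
      G.eval₂ (evq K) (yK N K) := by
  rw [alpha, AdjoinRoot.lift_mk, eval₂_i1_map]

theorem beta_mk (hP : P.map ((toT N K K').comp (evq K)) = chi D) (u : D.ι) (G : K[X][X]) :
    beta D hP u (AdjoinRoot.mk (P1 P) (G.map (algebraMap K[X] (F1 K)))) =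
      (G.map ((toT N K K').comp (evq K))).eval (Yf D u) := by
  rw [beta, AdjoinRoot.lift_mk, eval₂_i2_map]

theorem alpha_of (hPy : P.eval₂ (evq K) (yK N K) = 0) (r : F1 K) :
    alpha hPy (AdjoinRoot.of (P1 P) r) = i1 K r := by
  rw [alpha, AdjoinRoot.lift_of]

theorem beta_of (hP : P.map ((toT N K K').comp (evq K)) = chi D) (u : D.ι) (r : F1 K) :
    beta D hP u (AdjoinRoot.of (P1 P) r) = i2 N K K' r := by
  rw [beta, AdjoinRoot.lift_of]

theorem alpha_root (hPy : P.eval₂ (evq K) (yK N K) = 0) :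
    alpha hPy (AdjoinRoot.root (P1 P)) = yK N K := by
  rw [alpha, AdjoinRoot.lift_root]

theorem beta_root (hP : P.map ((toT N K K').comp (evq K)) = chi D) (u : D.ι) :
    beta D hP u (AdjoinRoot.root (P1 P)) = Yf D u := by
  rw [beta, AdjoinRoot.lift_root]

/-- `β u₀ = T ∘ α` -/
theorem beta_u0 (hPy : P.eval₂ (evq K) (yK N K) = 0)
    (hP : P.map ((toT N K K').comp (evq K)) = chi D) (a : AdjoinRoot (P1 P)) :
    beta D hP D.u₀ a = toT N K K' (alpha hPy a) := by
  obtain ⟨g, rfl⟩ := AdjoinRoot.mk_surjective a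
  rw [beta, alpha, AdjoinRoot.lift_mk, AdjoinRoot.lift_mk, hom_eval₂, toT_yK N D]
  congr 1
  exact RingHom.ext fun r => i2_eq N r

end Adjoin

/-! ### Separability: the conjugates `Y_u` are pairwise distinct -/

omit [Field K] [Algebra K K'] in
/-- (take `K = K'` in the previous results) -/
theorem Yf_injective : Function.Injective (Yf D) := by
  obtain ⟨P, hPm, hPdeg, hPy, hP⟩ := exists_charpoly N D (K := K')
  have hirr : Irreducible P := irreducible_of_charpoly N D hPm hPdeg hPy
  have hirr1 : Irreducible (P1 P) :=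
    (hPm.irreducible_iff_irreducible_map_fraction_map).mp hirr
  have hder : derivative (P1 P) ≠ 0 := by
    rw [derivative_map]
    intro h
    have h2 : derivative P = 0 :=
      Polynomial.map_injective _ (IsFractionRing.injective K'[X] (F1 K'))
        (h.trans (Polynomial.map_zero _).symm)
    have h3 := derivative_eval_ne_zero N D hP
    rw [h2, eval₂_zero] at h3
    exact h3 rfl
  have hsep : (P1 P).Separable := (separable_iff_derivative_ne_zero hirr1).mpr hder
  have hchi : chi D = (P1 P).map (i2 N K' K') := by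
    rw [Polynomial.map_map, i2_comp, hP]
  have hsep2 : (chi D).Separable := hchi ▸ hsep.map
  exact separable_prod_X_sub_C_iff.mp hsep2

omit [Field K] [Algebra K K'] in
theorem cof_ne_zero (u : D.ι) : cof D u ≠ 0 := by
  rw [Finset.prod_ne_zero_iff]
  intro u' hu'
  exact sub_ne_zero.mpr fun h =>
    (Finset.ne_of_mem_erase hu') (Yf_injective N D h).symm

/-! ### The conjugate embeddings -/

include D in
theorem exists_conj_emb' :
    ∃ σ : D.ι → (↥(Ejy N K) →+* LaurentSeries K'),
      (∀ u (f : ↥(Ejy N K)), (f : LaurentSeries K) ∈ KjC K →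
        σ u f = toT N K K' (f : LaurentSeries K)) ∧
      (∀ u (f : ↥(Ejy N K)), (f : LaurentSeries K) = S28.yUnit K N → σ u f = D.Y u) ∧
      (∀ u (d : ℕ) [NeZero d], d ∣ N → ∀ (f : ↥(Ejy N K)),
        (f : LaurentSeries K) = qExpand K d (jqModC K) → σ u f = D.J u d) ∧
      (∀ f : ↥(Ejy N K), σ D.u₀ f = toT N K K' (f : LaurentSeries K)) := by
  classical
  obtain ⟨P, hPm, hPdeg, hPy, hP⟩ := exists_charpoly N D (K := K)
  have hirr : Irreducible P := irreducible_of_charpoly N D hPm hPdeg hPy
  have hirr1 : Irreducible (P1 P) :=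
    (hPm.irreducible_iff_irreducible_map_fraction_map).mp hirr
  have : Fact (Irreducible (P1 P)) := ⟨hirr1⟩
  have hαinj : Function.Injective (alpha (N := N) hPy) := (alpha (N := N) hPy).injective
  -- constants and `j` come from `Frac K[X]`
  have hC : ∀ c : K, i1 K (algebraMap K[X] (F1 K) (C c)) = algebraMap K (LaurentSeries K) c := by
    intro c
    rw [i1_algebraMap]
    simp only [AlgHom.toRingHom_eq_coe, RingHom.coe_coe, aeval_C]
  have hX : i1 K (algebraMap K[X] (F1 K) X) = jqModC K := by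
    rw [i1_algebraMap]
    simp only [AlgHom.toRingHom_eq_coe, RingHom.coe_coe, aeval_X]
  -- `K(j)` is in the range of `i1`
  have hKj : ∀ f : LaurentSeries K, f ∈ KjC K → ∃ r : F1 K, i1 K r = f := by
    intro f hf
    have hle : Subfield.closure (Set.range (algebraMap K (LaurentSeries K)) ∪ {jqModC K}) ≤
        (i1 K).fieldRange := by
      rw [Subfield.closure_le]
      rintro x (⟨c, rfl⟩ | hx)
      · exact ⟨_, hC c⟩
      · rw [Set.mem_singleton_iff] at hx
        rw [hx]
        exact ⟨_, hX⟩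
    exact hle hf
  -- `K(j, y)` is in the range of `α`
  have hrange : ∀ f : LaurentSeries K, f ∈ Ejy N K → ∃ a, alpha (N := N) hPy a = f := by
    intro f hf
    have hle : Subfield.closure (Set.range (algebraMap K (LaurentSeries K)) ∪
        {jqModC K, (S28.yUnit K N : LaurentSeries K)}) ≤ (alpha (N := N) hPy).fieldRange := by
      rw [Subfield.closure_le]
      rintro x (⟨c, rfl⟩ | hx)
      · exact ⟨AdjoinRoot.of (P1 P) (algebraMap K[X] (F1 K) (C c)), by rw [alpha_of, hC]⟩
      · rcases hx with rfl | hx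
        · exact ⟨AdjoinRoot.of (P1 P) (algebraMap K[X] (F1 K) X), by rw [alpha_of, hX]⟩
        · rw [Set.mem_singleton_iff] at hx
          rw [hx]
          exact ⟨AdjoinRoot.root (P1 P), alpha_root hPy⟩
    exact hle hf
  choose inv hinv using fun f : ↥(Ejy N K) => hrange f.1 f.2
  have hinv_eq : ∀ (f : ↥(Ejy N K)) (a : AdjoinRoot (P1 P)),
      alpha (N := N) hPy a = (f : LaurentSeries K) → inv f = a :=
    fun f a h => hαinj ((hinv f).trans h.symm)
  let invHom : ↥(Ejy N K) →+* AdjoinRoot (P1 P) :=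
    { toFun := inv
      map_one' := hinv_eq _ _ (map_one _)
      map_mul' := fun f g => hinv_eq _ _ (by rw [map_mul, hinv, hinv]; rfl)
      map_zero' := hinv_eq _ _ (map_zero _)
      map_add' := fun f g => hinv_eq _ _ (by rw [map_add, hinv, hinv]; rfl) }
  have hσ : ∀ (u : D.ι) (f : ↥(Ejy N K)),
      ((beta D hP u).comp invHom) f = beta D hP u (inv f) := fun u f => rfl
  refine ⟨fun u => (beta D hP u).comp invHom, ?_, ?_, ?_, ?_⟩
  · intro u f hf
    obtain ⟨r, hr⟩ := hKj _ hf
    rw [hσ, hinv_eq f (AdjoinRoot.of (P1 P) r) (by rw [alpha_of, hr]), beta_of, i2_eq, hr]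
  · intro u f hf
    rw [hσ, hinv_eq f (AdjoinRoot.root (P1 P)) (by rw [alpha_root, hf]), beta_root]
  · intro u d _ hd f hf
    obtain ⟨R₀, hR₀map, hR₀⟩ := exists_lagrange N D hP d hd
    set aw : AdjoinRoot (P1 P) :=
      AdjoinRoot.mk (P1 P) ((derivative P).map (algebraMap K[X] (F1 K))) with haw
    set ar : AdjoinRoot (P1 P) :=
      AdjoinRoot.mk (P1 P) (R₀.map (algebraMap K[X] (F1 K))) with har
    have h1 : ar = inv f * aw := by
      apply hαinj
      rw [map_mul, hinv, har, haw, alpha_mk, alpha_mk, hf, hR₀]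
    have h2 := congrArg (beta D hP u) h1
    rw [map_mul, har, haw, beta_mk, beta_mk, hR₀map, lag_eval, ← derivative_map, hP,
      derivative_chi_eval] at h2
    rw [hσ]
    exact (mul_right_cancel₀ (cof_ne_zero N D u) h2).symm
  · intro f
    rw [hσ, beta_u0 D hPy hP, hinv]

end Fermat.Agent.S18.RED2069.P2
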