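import Fermat.Agent.S18.RED2069.P2Descent

/-!
# S18 / RED, piece 2 (helper2069): the core facts from a `FieldAN N K'`

`K ⊆ K'` fields, `D : FieldAN N K'`.  Notation: `T = toT N K K'` (`f(q) ↦ f(t^N)` with coefficients
pushed to `K'`), `evq K = aeval j : K[X] → K((q))`, `evt = aeval j(t^N) : K'[X] → K'((t))`.
-/

set_option autoImplicit false

noncomputable section

namespace Fermat.Agent.S18.RED2069.P2

open ModularCurve Polynomial Fermat.Agent.S18.RED2069

variable (N : ℕ) [NeZero N]

/-- `p ↦ p(j)`, `K[X] → K((q))`. -/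
abbrev evq (K : Type) [Field K] : K[X] →+* LaurentSeries K :=
  (aeval (jqModC K) : K[X] →ₐ[K] LaurentSeries K).toRingHom

/-- `p ↦ p(j(t^N))`, `K'[X] → K'((t))`. -/
abbrev evt (K' : Type) [Field K'] : K'[X] →+* LaurentSeries K' :=
  (Polynomial.aeval (R := K') (S28.jt K' N)).toRingHom

section Basic

variable (K K' : Type) [Field K] [Field K'] [Algebra K K']

theorem toT_apply (f : LaurentSeries K) :
    toT N K K' f = qExpand K' N (coeffMap (algebraMap K K') f) := rfl

theorem toT_jqModC : toT N K K' (jqModC K) = S28.jt K' N := by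
  rw [toT_apply, coeffMap_jqModC]
  rfl

theorem toT_yUnit :
    toT N K K' (S28.yUnit K N : LaurentSeries K) = qExpand K' N (S28.yUnit K' N) := by
  rw [toT_apply, S28.RedIndep.coeffMap_yUnit]

theorem toT_jd (d : ℕ) [NeZero d] :
    toT N K K' (qExpand K d (jqModC K)) = qExpand K' N (qExpand K' d (jqModC K')) := by
  rw [toT_apply, coeffMap_qExpand, coeffMap_jqModC]

theorem coeffMap_algebraMap_injective :
    Function.Injective (coeffMap (algebraMap K K')) := by
  intro x y h
  ext n
  apply (algebraMap K K').injective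
  have := congrArg (fun z => z.coeff n) h
  simpa using this

theorem toT_injective : Function.Injective (toT N K K') :=
  (qExpand_injective N).comp (coeffMap_algebraMap_injective K K')

theorem toT_comp_evq :
    (toT N K K').comp (evq K) = (evt N K').comp (mapRingHom (algebraMap K K')) := by
  apply Polynomial.ringHom_ext
  · intro c
    simp only [RingHom.comp_apply, AlgHom.toRingHom_eq_coe, RingHom.coe_coe, aeval_C,
      coe_mapRingHom, map_C]
    rw [toT_apply, S28.RedIndep.coeffMap_algebraMap', S28.RedIndep.qExpand_algebraMap]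
  · simp only [RingHom.comp_apply, AlgHom.toRingHom_eq_coe, RingHom.coe_coe, aeval_X,
      coe_mapRingHom, map_X]
    exact toT_jqModC N K K'

theorem evt_injective : Function.Injective (evt N K') :=
  S28.IrrCore.aeval_injective_of_order_neg _ (S28.RedIndep.order_jt_neg K' N)

theorem evq_injective : Function.Injective (evq K) := by
  rw [injective_iff_map_eq_zero]
  intro p hp
  exact S28.QRed.eq_zero_of_aeval_jqModC_eq_zero K hp

/-- `qExpand` intertwines `aeval j` and `aeval j(t^N)`. -/
theorem qExpand_comp_aeval :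
    (qExpand K' N).comp ((aeval (jqModC K') : K'[X] →ₐ[K'] LaurentSeries K').toRingHom) =
      evt N K' := by
  apply Polynomial.ringHom_ext
  · intro c
    simp only [RingHom.comp_apply, AlgHom.toRingHom_eq_coe, RingHom.coe_coe, aeval_C]
    exact S28.RedIndep.qExpand_algebraMap N c
  · simp only [RingHom.comp_apply, AlgHom.toRingHom_eq_coe, RingHom.coe_coe, aeval_X]
    rfl

theorem qExpand_aeval (p : K'[X]) :
    qExpand K' N (aeval (jqModC K') p) = evt N K' p :=
  RingHom.congr_fun (qExpand_comp_aeval N K') p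

end Basic

/-! ### Facts over `K'` -/

section OverK'

variable {N} {K' : Type} [Field K'] (D : FieldAN N K')

/-- the conjugates of `y` as Laurent series -/
abbrev Yf (u : D.ι) : LaurentSeries K' := (D.Y u : LaurentSeries K')

theorem Yf_ne_zero (u : D.ι) : Yf D u ≠ 0 := (D.Y u).isUnit.ne_zero

theorem hPinv : ∏ u : D.ι, (X - C (Yf D u)⁻¹) ∈ Polynomial.lifts (evt N K') := by
  have h := D.charpoly_Yinv
  have h2 : ∀ u : D.ι, (Yf D u)⁻¹ = (((D.Y u)⁻¹ : (LaurentSeries K')ˣ) : LaurentSeries K') := by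
    intro u
    apply inv_eq_of_mul_eq_one_right
    exact Units.mul_inv _
  simp only [h2]
  exact h

theorem hord_unit (r : K'[X]) (hr : IsUnit r) : (evt N K' r).order = 0 := by
  obtain ⟨r₀, _, rfl⟩ := Polynomial.isUnit_iff.mp hr
  have : evt N K' (C r₀) = HahnSeries.C r₀ := by
    simp only [AlgHom.toRingHom_eq_coe, RingHom.coe_coe, aeval_C]
    exact LaurentSeries.algebraMap_apply K' r₀
  rw [this, HahnSeries.order_C]

theorem c_ne_zero : ((N : ℤ) * (N.totient : ℤ)) ≠ 0 := by
  have hN : (N : ℤ) ≠ 0 := by exact_mod_cast NeZero.ne N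
  have hφ : (N.totient : ℤ) ≠ 0 := by
    exact_mod_cast (Nat.totient_pos.mpr (Nat.pos_of_ne_zero (NeZero.ne N))).ne'
  exact mul_ne_zero hN hφ

/-- No nonzero polynomial over `K'[j]` of degree `< card ι` kills `Y u₀`. -/
theorem indepK' (q : K'[X][X]) (hq : q ≠ 0) (hdeg : q.natDegree < Fintype.card D.ι) :
    q.eval₂ (evt N K') (Yf D D.u₀) ≠ 0 :=
  S28.IrrCore.eval₂_ne_zero_of_natDegree_lt (evt N K') (evt_injective N K') HahnSeries.order
    (fun _ _ hx hy => HahnSeries.order_mul hx hy) (hord_unit (N := N)) (Yf D) (Yf_ne_zero D) D.u₀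
    D.charpoly_Y (hPinv D) ((N : ℤ) * (N.totient : ℤ)) c_ne_zero D.order_Y q hq hdeg

theorem card_pos : 0 < Fintype.card D.ι := Fintype.card_pos_iff.mpr ⟨D.u₀⟩

/-- degree form of `indepK'` -/
theorem indepK'_degree (q : K'[X][X]) (hdeg : q.degree < (Fintype.card D.ι : ℕ))
    (h : q.eval₂ (evt N K') (Yf D D.u₀) = 0) : q = 0 := by
  by_contra hq
  exact indepK' D q hq ((natDegree_lt_iff_degree_lt hq).mpr hdeg) h

theorem order_Y0 :
    (Yf D D.u₀).order = ((Fintype.card D.ι : ℤ) - 1) * ((N : ℤ) * (N.totient : ℤ)) :=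
  S28.IrrCore.ord_base (evt N K') (evt_injective N K') HahnSeries.order
    (fun _ _ hx hy => HahnSeries.order_mul hx hy) (hord_unit (N := N)) (Yf D) (Yf_ne_zero D) D.u₀
    D.charpoly_Y (hPinv D) ((N : ℤ) * (N.totient : ℤ)) D.order_Y

theorem Y0_ne (u : D.ι) (hu : u ≠ D.u₀) : Yf D D.u₀ ≠ Yf D u := by
  intro h
  have h1 := order_Y0 D
  rw [h, D.order_Y u hu] at h1
  have hc := c_ne_zero (N := N)
  have hpos : (0 : ℤ) < Fintype.card D.ι := by exact_mod_cast card_pos D
  have h2 : (Fintype.card D.ι : ℤ) * ((N : ℤ) * (N.totient : ℤ)) = 0 := by linarith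
  rcases mul_eq_zero.mp h2 with h3 | h3
  · exact hpos.ne' h3
  · exact hc h3

/-- the characteristic polynomial `∏ (X - Y_u)` -/
abbrev chi : (LaurentSeries K')[X] := ∏ u : D.ι, (X - C (Yf D u))

theorem chi_monic : (chi D).Monic := monic_prod_of_monic _ _ fun _ _ => monic_X_sub_C _

theorem chi_natDegree : (chi D).natDegree = Fintype.card D.ι := by
  rw [natDegree_prod_of_monic _ _ fun _ _ => monic_X_sub_C _]
  simp

theorem chi_eval (u : D.ι) : (chi D).eval (Yf D u) = 0 := by
  rw [eval_prod]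
  exact Finset.prod_eq_zero (Finset.mem_univ u) (by simp)

/-- the cofactor `∏_{u' ≠ u} (Y_u - Y_u')` -/
abbrev cof (u : D.ι) : LaurentSeries K' := ∏ u' ∈ Finset.univ.erase u, (Yf D u - Yf D u')

theorem derivative_chi_eval (u : D.ι) : (derivative (chi D)).eval (Yf D u) = cof D u := by
  classical
  have h : derivative (chi D) =
      ∑ v : D.ι, ∏ u' ∈ Finset.univ.erase v, (X - C (Yf D u')) := by
    rw [chi, Finset.prod_eq_multiset_prod, derivative_prod]
    simp only [derivative_sub, derivative_X, derivative_C, sub_zero, mul_one]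
    rfl
  rw [h, eval_finsetSum, Finset.sum_eq_single u]
  · rw [eval_prod]
    simp
  · intro v _ hv
    rw [eval_prod]
    exact Finset.prod_eq_zero (Finset.mem_erase.mpr ⟨Ne.symm hv, Finset.mem_univ u⟩) (by simp)
  · intro h
    exact absurd (Finset.mem_univ u) h

theorem cof_u0_ne_zero : cof D D.u₀ ≠ 0 := by
  rw [Finset.prod_ne_zero_iff]
  intro u hu
  exact sub_ne_zero.mpr (Y0_ne D u (Finset.ne_of_mem_erase hu))

/-- the Lagrange polynomial of `j(q^d)` -/
abbrev lag (d : ℕ) : (LaurentSeries K')[X] :=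
  ∑ u : D.ι, C (D.J u d) * ∏ u' ∈ Finset.univ.erase u, (X - C (Yf D u'))

theorem lag_eval (d : ℕ) (u : D.ι) : (lag D d).eval (Yf D u) = D.J u d * cof D u := by
  classical
  rw [eval_finsetSum, Finset.sum_eq_single u]
  · rw [eval_mul, eval_C, eval_prod]
    simp
  · intro v _ hv
    rw [eval_mul, eval_prod]
    rw [Finset.prod_eq_zero (Finset.mem_erase.mpr ⟨Ne.symm hv, Finset.mem_univ u⟩) (by simp),
      mul_zero]
  · intro h
    exact absurd (Finset.mem_univ u) h

theorem lag_degree_lt (d : ℕ) : (lag D d).degree < (Fintype.card D.ι : ℕ) := by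
  classical
  refine lt_of_le_of_lt (degree_sum_le _ _) ?_
  rw [Finset.sup_lt_iff (by exact WithBot.bot_lt_coe _)]
  intro u _
  have h1 : (C (D.J u d) * ∏ u' ∈ Finset.univ.erase u, (X - C (Yf D u'))).degree ≤
      (∏ u' ∈ Finset.univ.erase u, (X - C (Yf D u'))).degree := by
    refine (degree_mul_le _ _).trans ?_
    calc (C (D.J u d)).degree + (∏ u' ∈ Finset.univ.erase u, (X - C (Yf D u'))).degree
        ≤ 0 + (∏ u' ∈ Finset.univ.erase u, (X - C (Yf D u'))).degree :=
          add_le_add_left degree_C_le _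
      _ = _ := zero_add _
  refine lt_of_le_of_lt h1 ?_
  have hm : (∏ u' ∈ Finset.univ.erase u, (X - C (Yf D u'))).Monic :=
    monic_prod_of_monic _ _ fun _ _ => monic_X_sub_C _
  rw [degree_eq_natDegree hm.ne_zero, natDegree_prod_of_monic _ _ fun _ _ => monic_X_sub_C _]
  simp only [natDegree_X_sub_C, Finset.sum_const, smul_eq_mul, mul_one]
  rw [Finset.card_erase_of_mem (Finset.mem_univ u), Finset.card_univ]
  exact_mod_cast Nat.sub_lt (card_pos D) Nat.one_pos

end OverK'

end Fermat.Agent.S18.RED2069.P2
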