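import Fermat.Agent.S18.RED.Defs
import Fermat.Agent.S28.RedIndep

/-!
# S18 / RED, piece 2 (helper2069): descent of `K'[j]`-relations between `K`-rational series

Generic tools:
* `cw φ` : apply an additive map `φ : A →+ B` to the coefficients of a polynomial;
* `Lam lam` : apply a `K`-linear functional `lam : K' → K` to the coefficients of a Laurent series,
  with the key identity `Lam_aeval_mul`:
  `Lam (aeval j' p * coeffMap f) = aeval j (cw lam p) * f` for `p ∈ K'[X]`, `f ∈ K((q))`.
-/

set_option autoImplicit false

noncomputable section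

namespace Fermat.Agent.S18.RED2069

open ModularCurve Polynomial

/-! ### Coefficientwise additive maps on polynomials -/

section Coeffwise

variable {A B : Type*} [Semiring A] [Semiring B] (φ : A →+ B)

/-- Apply an additive map to the coefficients of a polynomial. -/
def cw (p : A[X]) : B[X] := ∑ i ∈ p.support, monomial i (φ (p.coeff i))

theorem coeff_cw (p : A[X]) (m : ℕ) : (cw φ p).coeff m = φ (p.coeff m) := by
  classical
  unfold cw
  rw [finsetSum_coeff]
  simp only [coeff_monomial]
  rw [Finset.sum_ite_eq']
  split_ifs with h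
  · rfl
  · rw [notMem_support_iff.mp h, map_zero]

theorem cw_add (p q : A[X]) : cw φ (p + q) = cw φ p + cw φ q := by
  ext m
  simp only [coeff_cw, coeff_add, map_add]

theorem cw_zero : cw φ (0 : A[X]) = 0 := by
  ext m
  simp only [coeff_cw, coeff_zero, map_zero]

theorem cw_monomial (m : ℕ) (c : A) : cw φ (monomial m c) = monomial m (φ c) := by
  ext k
  simp only [coeff_cw, coeff_monomial]
  split_ifs
  · rfl
  · exact map_zero φ

theorem natDegree_cw_le (p : A[X]) : (cw φ p).natDegree ≤ p.natDegree :=
  natDegree_le_iff_coeff_eq_zero.mpr fun m hm => by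
    rw [coeff_cw, coeff_eq_zero_of_natDegree_lt hm, map_zero]

theorem degree_cw_le (p : A[X]) : (cw φ p).degree ≤ p.degree :=
  (degree_le_iff_coeff_zero _ _).mpr fun m hm => by
    rw [coeff_cw, coeff_eq_zero_of_degree_lt hm, map_zero]

theorem cw_one (h : φ 1 = 1) : cw φ (1 : A[X]) = 1 := by
  have : (1 : A[X]) = monomial 0 1 := rfl
  rw [this, cw_monomial, h]
  rfl

/-- `cw` as an additive homomorphism. -/
def cwHom : A[X] →+ B[X] where
  toFun := cw φ
  map_zero' := cw_zero φ
  map_add' := cw_add φ

@[simp] theorem cwHom_apply (p : A[X]) : cwHom φ p = cw φ p := rfl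

theorem cw_sum {ι : Type*} (s : Finset ι) (f : ι → A[X]) :
    cw φ (∑ i ∈ s, f i) = ∑ i ∈ s, cw φ (f i) :=
  map_sum (cwHom φ) f s

end Coeffwise

section CoeffwiseRing

variable {A B : Type*} [Semiring A] [Semiring B]

/-- For a ring homomorphism, `cw` is `Polynomial.map`. -/
theorem cw_ringHom (f : A →+* B) (p : A[X]) : cw (f : A →+ B) p = p.map f := by
  ext m
  rw [coeff_cw, coeff_map]
  rfl

end CoeffwiseRing

/-! ### A linear functional applied to the coefficients of a Laurent series -/

section Descent

variable {K K' : Type*} [Field K] [Field K'] [Algebra K K'] (lam : K' →ₗ[K] K)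

/-- Apply the `K`-linear functional `lam : K' → K` coefficientwise. -/
def Lam (f : LaurentSeries K') : LaurentSeries K := HahnSeries.map f lam

@[simp] theorem Lam_coeff (f : LaurentSeries K') (n : ℤ) : (Lam lam f).coeff n = lam (f.coeff n) :=
  rfl

theorem Lam_add (f g : LaurentSeries K') : Lam lam (f + g) = Lam lam f + Lam lam g := by
  ext n
  simp

theorem Lam_zero : Lam lam (0 : LaurentSeries K') = 0 := by
  ext n
  simp

/-- `Lam` as an additive homomorphism. -/
def LamHom : LaurentSeries K' →+ LaurentSeries K where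
  toFun := Lam lam
  map_zero' := Lam_zero lam
  map_add' := Lam_add lam

@[simp] theorem LamHom_apply (f : LaurentSeries K') : LamHom lam f = Lam lam f := rfl

theorem Lam_sum {ι : Type*} (s : Finset ι) (f : ι → LaurentSeries K') :
    Lam lam (∑ i ∈ s, f i) = ∑ i ∈ s, Lam lam (f i) :=
  map_sum (LamHom lam) f s

/-- The basic identity: `Λ(c · f^{K'}) = λ(c) · f` for `c ∈ K'`, `f ∈ K((q))`. -/
theorem Lam_C_mul_coeffMap (c : K') (f : LaurentSeries K) :
    Lam lam (HahnSeries.C c * coeffMap (algebraMap K K') f) = HahnSeries.C (lam c) * f := by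
  ext n
  rw [Lam_coeff, HahnSeries.C_mul_eq_smul, HahnSeries.C_mul_eq_smul, HahnSeries.coeff_smul,
    HahnSeries.coeff_smul, coeffMap_coeff, smul_eq_mul, smul_eq_mul]
  have : c * algebraMap K K' (f.coeff n) = f.coeff n • c := by
    rw [Algebra.smul_def, mul_comm]
  rw [this, map_smul, smul_eq_mul, mul_comm]

theorem Lam_coeffMap (h1 : lam 1 = 1) (f : LaurentSeries K) :
    Lam lam (coeffMap (algebraMap K K') f) = f := by
  have h := Lam_C_mul_coeffMap lam 1 f
  rwa [map_one, one_mul, h1, map_one, one_mul] at h

/-- The key identity: `Λ(p(j') · f^{K'}) = (λ_* p)(j) · f`. -/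
theorem Lam_aeval_mul (p : K'[X]) (f : LaurentSeries K) :
    Lam lam (aeval (jqModC K') p * coeffMap (algebraMap K K') f) =
      aeval (jqModC K) (cw (lam : K' →+ K) p) * f := by
  induction p using Polynomial.induction_on' with
  | add p q hp hq =>
    rw [map_add, add_mul, Lam_add, hp, hq, cw_add, map_add, add_mul]
  | monomial m c =>
    rw [cw_monomial, aeval_monomial, aeval_monomial]
    have h1 : algebraMap K' (LaurentSeries K') c = HahnSeries.C c := by
      rw [S28.QRed.algebraMap_laurent_eq_single, HahnSeries.C_apply]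
    have h2 : algebraMap K (LaurentSeries K) ((lam : K' →+ K) c) = HahnSeries.C (lam c) := by
      rw [S28.QRed.algebraMap_laurent_eq_single, HahnSeries.C_apply]
      rfl
    rw [h1, h2, ← coeffMap_jqModC (algebraMap K K'), ← map_pow, mul_assoc, ← map_mul,
      Lam_C_mul_coeffMap, mul_assoc]

end Descent

end Fermat.Agent.S18.RED2069
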