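import Fermat.Agent.S18.RED2069.P2Core

/-!
# S18 / RED, piece 2 (helper2069): the statements of `RED/P2.lean` over `K`

`E = K(j, y) ⊆ K((q))` (written `Ejy N K`; it is `KjyC N K` of `RED/P2.lean`).
-/

set_option autoImplicit false
set_option linter.unusedSectionVars false

noncomputable section

namespace Fermat.Agent.S18.RED2069.P2

open ModularCurve Polynomial Fermat.Agent.S18.RED2069

variable (N : ℕ) [NeZero N] {K K' : Type} [Field K] [Field K'] [Algebra K K'] (D : FieldAN N K')

/-- the eta-quotient unit as a Laurent series over `K` -/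
abbrev yK (K : Type) [Field K] : LaurentSeries K := (S28.yUnit K N : LaurentSeries K)

/-- `K(j, y) ⊆ K((q))` -/
abbrev Ejy (K : Type) [Field K] : IntermediateField K (LaurentSeries K) :=
  IntermediateField.adjoin K {jqModC K, (S28.yUnit K N : LaurentSeries K)}

include D in
theorem toT_yK : toT N K K' (yK N K) = Yf D D.u₀ := by
  rw [toT_yUnit, ← D.base_Y]

include D in
theorem toT_eval₂ (G : K[X][X]) :
    toT N K K' (G.eval₂ (evq K) (yK N K)) =
      (G.map (mapRingHom (algebraMap K K'))).eval₂ (evt N K') (Yf D D.u₀) := by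
  rw [hom_eval₂, toT_comp_evq, toT_yK N D, eval₂_map]

include D in
theorem toT_eval₂' (G : K[X][X]) :
    toT N K K' (G.eval₂ (evq K) (yK N K)) =
      (G.map ((toT N K K').comp (evq K))).eval (Yf D D.u₀) := by
  rw [hom_eval₂, toT_yK N D, eval₂_eq_eval_map]

theorem map_alg_injective :
    Function.Injective (Polynomial.map (mapRingHom (algebraMap K K')) : K[X][X] → K'[X][X]) :=
  Polynomial.map_injective _ (Polynomial.map_injective _ (algebraMap K K').injective)

include D in
/-- No nonzero polynomial over `K[j]` of degree `< card ι` kills `y`. -/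
theorem indepK (G : K[X][X]) (hdeg : G.degree < (Fintype.card D.ι : ℕ))
    (h : G.eval₂ (evq K) (yK N K) = 0) : G = 0 := by
  apply map_alg_injective (K := K) (K' := K')
  rw [Polynomial.map_zero]
  refine indepK'_degree D _ (lt_of_le_of_lt degree_map_le hdeg) ?_
  rw [← toT_eval₂ N D, h, map_zero]

include D in
theorem yUnit_indep' (a : Fin (psiIdx N) → K[X])
    (h : ∑ i, aeval (jqModC K) (a i) * (S28.yUnit K N : LaurentSeries K) ^ (i : ℕ) = 0) :
    a = 0 := by
  classical
  set q : K[X][X] := ∑ i : Fin (psiIdx N), C (a i) * X ^ (i : ℕ) with hqdef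
  have hcoeff : ∀ j : Fin (psiIdx N), q.coeff (j : ℕ) = a j := by
    intro j
    rw [hqdef, finsetSum_coeff, Finset.sum_eq_single j]
    · simp
    · intro i _ hij
      rw [coeff_C_mul, coeff_X_pow, if_neg, mul_zero]
      exact fun h => hij (Fin.ext h.symm)
    · intro h
      exact absurd (Finset.mem_univ j) h
  have hdeg : q.degree < (Fintype.card D.ι : ℕ) := by
    rw [D.card_eq]
    exact degree_sum_fin_lt a
  have hq : q = 0 := by
    refine indepK N D q hdeg ?_
    rw [hqdef, eval₂_finsetSum, ← h]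
    refine Finset.sum_congr rfl fun i _ => ?_
    rw [eval₂_mul, eval₂_C, eval₂_pow, eval₂_X]
    rfl
  funext j
  rw [← hcoeff j, hq]
  simp

/-- A `K`-linear retraction of `K → K'`. -/
theorem exists_lam : ∃ lam : K' →ₗ[K] K, lam 1 = 1 := by
  obtain ⟨g, hg⟩ := LinearMap.exists_leftInverse_of_injective (Algebra.linearMap K K')
    (LinearMap.ker_eq_bot.mpr (algebraMap K K').injective)
  refine ⟨g, ?_⟩
  have := LinearMap.congr_fun hg 1
  simpa using this

include D in
/-- **Descent**: a `K'[j]`-polynomial relation for `Y u₀` with `K`-rational value descends. -/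
theorem descend (lam : K' →ₗ[K] K) (h1 : lam 1 = 1) (G' : K'[X][X]) (g : LaurentSeries K)
    (h : G'.eval₂ (evt N K') (Yf D D.u₀) = toT N K K' g) :
    (cw (cwHom (lam : K' →+ K)) G').eval₂ (evq K) (yK N K) = g := by
  have hsum : G'.eval₂ (evt N K') (Yf D D.u₀) =
      qExpand K' N (∑ i ∈ Finset.range (G'.natDegree + 1),
        aeval (jqModC K') (G'.coeff i) * coeffMap (algebraMap K K') (yK N K ^ i)) := by
    rw [eval₂_eq_sum_range, map_sum]
    refine Finset.sum_congr rfl fun i _ => ?_
    rw [map_mul, qExpand_aeval, map_pow (coeffMap (algebraMap K K')), map_pow (qExpand K' N),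
      ← toT_apply, toT_yK N D]
  rw [hsum, toT_apply] at h
  have h2 := congrArg (Lam lam) (qExpand_injective N h)
  rw [Lam_sum, Lam_coeffMap lam h1] at h2
  rw [← h2, eval₂_eq_sum_range' (evq K) (Nat.lt_succ_of_le (natDegree_cw_le _ G'))]
  refine Finset.sum_congr rfl fun i _ => ?_
  rw [Lam_aeval_mul, coeff_cw, cwHom_apply]
  rfl

include D in
/-- The characteristic polynomial of `y` over `K[j]`. -/
theorem exists_charpoly :
    ∃ P : K[X][X], P.Monic ∧ P.natDegree = Fintype.card D.ι ∧
      P.eval₂ (evq K) (yK N K) = 0 ∧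
      P.map ((toT N K K').comp (evq K)) = chi D := by
  obtain ⟨lam, h1⟩ := exists_lam (K := K) (K' := K')
  obtain ⟨Q, hQ, hQdeg, hQmonic⟩ := lifts_and_natDegree_eq_and_monic D.charpoly_Y (chi_monic D)
  have hQ : Q.map (evt N K') = chi D := hQ
  rw [chi_natDegree] at hQdeg
  have hroot : Q.eval₂ (evt N K') (Yf D D.u₀) = 0 := by
    rw [eval₂_eq_eval_map, hQ]
    exact chi_eval D D.u₀
  set P : K[X][X] := cw (cwHom (lam : K' →+ K)) Q with hPdef
  have hPy : P.eval₂ (evq K) (yK N K) = 0 :=
    descend N D lam h1 Q 0 (by rw [hroot, map_zero])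
  have hPle : P.natDegree ≤ Fintype.card D.ι := hQdeg ▸ natDegree_cw_le _ Q
  have hPcoeff : P.coeff (Fintype.card D.ι) = 1 := by
    rw [hPdef, coeff_cw, cwHom_apply]
    have : Q.coeff (Fintype.card D.ι) = 1 := by
      rw [← hQdeg]
      exact hQmonic.coeff_natDegree
    rw [this]
    exact cw_one _ h1
  have hPmonic : P.Monic := monic_of_natDegree_le_of_coeff_eq_one _ hPle hPcoeff
  have hPdeg : P.natDegree = Fintype.card D.ι :=
    le_antisymm hPle (le_natDegree_of_ne_zero (by rw [hPcoeff]; exact one_ne_zero))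
  refine ⟨P, hPmonic, hPdeg, hPy, ?_⟩
  -- `Q = P'`
  set P' : K'[X][X] := P.map (mapRingHom (algebraMap K K')) with hP'def
  have hP'monic : P'.Monic := hPmonic.map _
  have hP'deg : P'.natDegree = Fintype.card D.ι := by
    rw [hP'def, hPmonic.natDegree_map, hPdeg]
  have hP'root : P'.eval₂ (evt N K') (Yf D D.u₀) = 0 := by
    rw [hP'def, ← toT_eval₂ N D, hPy, map_zero]
  have hQP : Q = P' := by
    by_contra hne
    have hdeg : (Q - P').degree < (Fintype.card D.ι : ℕ) := by
      have h2 : Q.degree = P'.degree := by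
        rw [degree_eq_natDegree hQmonic.ne_zero, degree_eq_natDegree hP'monic.ne_zero, hQdeg,
          hP'deg]
      have h3 := degree_sub_lt_left h2 hQmonic.ne_zero (by rw [hQmonic.leadingCoeff, hP'monic.leadingCoeff])
      rwa [degree_eq_natDegree hQmonic.ne_zero, hQdeg] at h3
    have h0 := indepK'_degree D (Q - P') hdeg (by rw [eval₂_sub, hroot, hP'root, sub_zero])
    exact hne (sub_eq_zero.mp h0)
  rw [toT_comp_evq, ← Polynomial.map_map, ← hP'def, ← hQP, hQ]

/-! ### The derivative value `w = P'(y)` and the Lagrange relations -/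

include D in
theorem toT_derivative {P : K[X][X]} (hP : P.map ((toT N K K').comp (evq K)) = chi D) :
    toT N K K' ((derivative P).eval₂ (evq K) (yK N K)) = cof D D.u₀ := by
  rw [toT_eval₂' N D, ← derivative_map, hP, derivative_chi_eval]

include D in
theorem derivative_eval_ne_zero {P : K[X][X]}
    (hP : P.map ((toT N K K').comp (evq K)) = chi D) :
    (derivative P).eval₂ (evq K) (yK N K) ≠ 0 := by
  intro h
  have h2 := toT_derivative N D hP
  rw [h, map_zero] at h2
  exact cof_u0_ne_zero D h2.symm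

include D in
/-- The Lagrange relation for `j(q^d)`, descended to `K`. -/
theorem exists_lagrange {P : K[X][X]} (hP : P.map ((toT N K K').comp (evq K)) = chi D)
    (d : ℕ) [NeZero d] (hd : d ∣ N) :
    ∃ R₀ : K[X][X], R₀.map ((toT N K K').comp (evq K)) = lag D d ∧
      qExpand K d (jqModC K) * (derivative P).eval₂ (evq K) (yK N K) =
        R₀.eval₂ (evq K) (yK N K) := by
  obtain ⟨lam, h1⟩ := exists_lam (K := K) (K' := K')
  obtain ⟨R', hR'⟩ := D.lagrange d hd
  have hR' : R'.map (evt N K') = lag D d := hR'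
  have hR'deg : R'.degree < (Fintype.card D.ι : ℕ) := by
    rw [← degree_map_eq_of_injective (evt_injective N K'), hR']
    exact lag_degree_lt D d
  have hval : R'.eval₂ (evt N K') (Yf D D.u₀) =
      toT N K K' (qExpand K d (jqModC K) * (derivative P).eval₂ (evq K) (yK N K)) := by
    rw [eval₂_eq_eval_map, hR', lag_eval, map_mul, toT_derivative N D hP, toT_jd, D.base_J d hd]
  set R₀ : K[X][X] := cw (cwHom (lam : K' →+ K)) R' with hR₀def
  have hR₀ := descend N D lam h1 R' _ hval
  refine ⟨R₀, ?_, hR₀.symm⟩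
  have hR₀deg : (R₀.map (mapRingHom (algebraMap K K'))).degree < (Fintype.card D.ι : ℕ) :=
    lt_of_le_of_lt (degree_map_le.trans (degree_cw_le _ R')) hR'deg
  have heq : R' = R₀.map (mapRingHom (algebraMap K K')) := by
    have hdeg : (R' - R₀.map (mapRingHom (algebraMap K K'))).degree < (Fintype.card D.ι : ℕ) :=
      lt_of_le_of_lt (degree_sub_le _ _) (max_lt hR'deg hR₀deg)
    have h0 := indepK'_degree D _ hdeg (by
      rw [eval₂_sub, hval, ← toT_eval₂ N D, hR₀, sub_self])
    exact sub_eq_zero.mp h0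
  rw [toT_comp_evq, ← Polynomial.map_map, ← heq, hR']

/-! ### Membership in `K(j, y)` -/

theorem aeval_mem_Ejy (p : K[X]) : aeval (jqModC K) p ∈ Ejy N K := by
  have hj : jqModC K ∈ Ejy N K := IntermediateField.subset_adjoin K _ (by simp)
  rw [aeval_eq_sum_range]
  refine sum_mem fun i _ => ?_
  rw [Algebra.smul_def]
  exact mul_mem ((Ejy N K).algebraMap_mem _) (pow_mem hj i)

theorem eval₂_mem_Ejy (G : K[X][X]) : G.eval₂ (evq K) (yK N K) ∈ Ejy N K := by
  have hy : yK N K ∈ Ejy N K := IntermediateField.subset_adjoin K _ (by simp)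
  rw [eval₂_eq_sum_range]
  refine sum_mem fun i _ => ?_
  exact mul_mem (aeval_mem_Ejy N _) (pow_mem hy i)

include D in
theorem jd_mem_Ejy (d : ℕ) [NeZero d] (hd : d ∣ N) : qExpand K d (jqModC K) ∈ Ejy N K := by
  obtain ⟨P, -, -, -, hP⟩ := exists_charpoly N D (K := K)
  obtain ⟨R₀, -, hR₀⟩ := exists_lagrange N D hP d hd
  have hw := derivative_eval_ne_zero N D hP
  have : qExpand K d (jqModC K) =
      R₀.eval₂ (evq K) (yK N K) * ((derivative P).eval₂ (evq K) (yK N K))⁻¹ := by
    rw [← hR₀, mul_assoc, mul_inv_cancel₀ hw, mul_one]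
  rw [this]
  exact mul_mem (eval₂_mem_Ejy N _) (inv_mem (eval₂_mem_Ejy N _))

include D in
theorem full_le_Ejy : modularFunctionFieldFullC K N ≤ Ejy N K := by
  rw [modularFunctionFieldFullC, IntermediateField.adjoin_le_iff]
  rintro x ⟨d, hne, hdvd, rfl⟩
  exact @jd_mem_Ejy N _ K K' _ _ _ D d hne hdvd

end Fermat.Agent.S18.RED2069.P2
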